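import Mathlib
import Fermat.Prelude.Def_ModularCurve_HeckeModule
import Fermat.Prelude.Def_GaloisRep_Residual

/-! S29 wiring: definitions (helper11). -/

set_option autoImplicit false

namespace Fermat.Agent.S29Lib

open ModularCurve AlgebraicCurve

noncomputable section

/-- the `p`-torsion of `J₀(N)(ℚ̄)` -/
abbrev Tors (N p : ℕ) : Type :=
  Pic0.torsion (AlgebraicClosure ℚ) (modularFunctionFieldBar N) p

/-- the Hecke operator `T_ℓ` of the prelude, restricted to the `p`-torsion -/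
def heckeTorsAdd (N : ℕ) [NeZero N] (p : ℕ) (ℓ : Nat.Primes) : Tors N p →+ Tors N p :=
  (((heckeOperatorBar N ℓ).toAddMonoidHom).comp
    (Pic0.torsion (AlgebraicClosure ℚ) (modularFunctionFieldBar N) p).subtype).codRestrict _
    (fun x => by
      have hx := Pic0.mem_torsion.1 x.2
      rw [Pic0.mem_torsion]
      show (p : ℤ) • heckeOperatorBar N ℓ (x : JZero N) = 0
      rw [← map_zsmul, hx, map_zero])

/-- the Hecke operator `T_ℓ` on the `p`-torsion, as a `ZMod p`-linear map -/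
def heckeTors (N : ℕ) [NeZero N] (p : ℕ) (ℓ : Nat.Primes) : Module.End (ZMod p) (Tors N p) :=
  (heckeTorsAdd N p ℓ).toZModLinearMap p

@[simp]
theorem coe_heckeTors (N : ℕ) [NeZero N] (p : ℕ) (ℓ : Nat.Primes) (x : Tors N p) :
    ((heckeTors N p ℓ x : Tors N p) : JZero N) = heckeOperatorBar N ℓ (x : JZero N) := rfl

/-- the two inputs from the Eichler-Shimura cluster (on `p`-torsion points only, in terms of the
prelude operator `heckeOperatorBar`; no commutativity of Hecke operators involved) -/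
structure ESInput (N : ℕ) [NeZero N] (p : ℕ) : Prop where
  unr : ∀ ℓ : ℕ, ℓ.Prime → ¬ ℓ ∣ N * p → ∀ A : ValuationSubring (AlgebraicClosure ℚ),
    A.LiesOverPrime ℓ → ∀ σ ∈ A.inertiaSubgroupIn ℚ, ∀ x : JZero N, p • x = 0 → σ • x = x
  quad : ∀ (ℓ : ℕ) (hℓ : ℓ.Prime), ¬ ℓ ∣ N * p → ∀ A : ValuationSubring (AlgebraicClosure ℚ),
    A.LiesOverPrime ℓ → ∀ σ : AlgebraicClosure ℚ ≃ₐ[ℚ] AlgebraicClosure ℚ,
      A.IsFrobeniusAt σ ℓ → ∀ x : JZero N, p • x = 0 →
        σ • σ • x - heckeOperatorBar N ⟨ℓ, hℓ⟩ (σ • x) + ℓ • x = 0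

open scoped TensorProduct in
/-- the eigensystem of `g` mod `p` occurs in `k ⊗ J₀(N)[p]` -/
def Occurs (N : ℕ) [NeZero N] (g : CuspForm (CongruenceSubgroup.Gamma0 N) 2) (p : ℕ)
    (k : Type) [Field k] [Algebra (ZMod p) k] (φ : integralClosure ℤ ℂ →+* k) : Prop :=
  ∃ v : k ⊗[ZMod p] Tors N p, v ≠ 0 ∧ ∀ ℓ : Nat.Primes, ¬ (ℓ : ℕ) ∣ N * p →
    ∀ a : integralClosure ℤ ℂ, (a : ℂ) = ModularFormClass.qCoeff g ℓ →
      (heckeTors N p ℓ).baseChange k v = φ a • v

end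

end Fermat.Agent.S29Lib
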