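import Mathlib
import Fermat.Agent.S29.Defs
import Fermat.Agent.S24.Fibres

/-! S29 wiring, leaf (GH): the Galois action on `J₀(N)` commutes with the Hecke operators. -/

set_option autoImplicit false
set_option linter.style.haveILetI false

namespace Fermat.Agent.S29Lib

open ModularCurve AlgebraicCurve
open scoped Pointwise

local notation "Qbar" => AlgebraicClosure ℚ
local notation "GQ" => (AlgebraicClosure ℚ ≃ₐ[ℚ] AlgebraicClosure ℚ)

section abstract

variable {K F F' : Type*} [Field K] [Field F] [Field F'] [Algebra K F] [Algebra K F']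

theorem GH.restrictAlong_smul (φ : F →ₐ[K] F') (hφ : φ.toRingHom.IsIntegral)
    (g : SemilinearAut K F) (g' : SemilinearAut K F')
    (h : SemilinearAut.IntertwinesAlong φ.toRingHom g g') (w : Place K F') :
    (g' • w).restrictAlong φ hφ = g • w.restrictAlong φ hφ := by
  have hinv := h.inv
  ext x
  show φ x ∈ g' • w.toValuationSubring ↔
    x ∈ g • (w.toValuationSubring.comap φ.toRingHom)
  rw [ValuationSubring.mem_pointwise_smul_iff_inv_smul_mem,
    ValuationSubring.mem_pointwise_smul_iff_inv_smul_mem, ValuationSubring.mem_comap]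
  have := hinv x
  rw [show g'⁻¹ • φ x = φ.toRingHom (g⁻¹ • x) from this]

theorem GH.ord_smul_map (φ : F →ₐ[K] F')
    (g : SemilinearAut K F) (g' : SemilinearAut K F')
    (h : SemilinearAut.IntertwinesAlong φ.toRingHom g g') (w : Place K F') (f : F) :
    (g' • w).ord (φ (g • f)) = w.ord (φ f) := by
  have := h f
  rw [show φ (g • f) = g' • φ f from this.symm, SemilinearAut.ord_smul]

theorem GH.ramificationIndexAlong_smul (φ : F →ₐ[K] F')
    (g : SemilinearAut K F) (g' : SemilinearAut K F')
    (h : SemilinearAut.IntertwinesAlong φ.toRingHom g g') (w : Place K F') :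
    (g' • w).ramificationIndexAlong φ = w.ramificationIndexAlong φ := by
  unfold Place.ramificationIndexAlong Place.ramificationIndex
  congr 1
  ext n
  simp only [Set.mem_ofPred_eq]
  refine and_congr_right fun _ => ⟨?_, ?_⟩
  · rintro ⟨f, hf, hn⟩
    refine ⟨g⁻¹ • f, by simpa using hf, ?_⟩
    rw [← hn]
    have := GH.ord_smul_map φ g g' h w (g⁻¹ • f)
    rw [smul_inv_smul] at this
    exact this.symm
  · rintro ⟨f, hf, hn⟩
    refine ⟨g • f, by simpa using hf, ?_⟩
    rw [← hn]
    exact GH.ord_smul_map φ g g' h w f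

theorem GH.inertiaDegAlong_smul (φ : F →ₐ[K] F') (hφ : φ.toRingHom.IsIntegral)
    (g : SemilinearAut K F) (g' : SemilinearAut K F')
    (h : SemilinearAut.IntertwinesAlong φ.toRingHom g g')
    (hdeg : ∀ v : Place K F, v.deg ≠ 0) (w : Place K F') :
    (g' • w).inertiaDegAlong φ hφ = w.inertiaDegAlong φ hφ := by
  have key : ∀ w : Place K F', (w.restrictAlong φ hφ).deg * w.inertiaDegAlong φ hφ = w.deg := by
    intro w
    letI := algebraAlong φ
    haveI := isScalarTower_along φ
    haveI := isIntegral_along φ hφ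
    exact w.deg_restrict_mul_inertiaDeg (F := F)
  have h1 := key (g' • w)
  rw [GH.restrictAlong_smul φ hφ g g' h, SemilinearAut.deg_smul, SemilinearAut.deg_smul,
    ← key w] at h1
  exact Nat.eq_of_mul_eq_mul_left (Nat.pos_of_ne_zero (hdeg _)) h1

theorem GH.pullbackAlong_smul [HasPrincipalDivisors K F'] (φ : F →ₐ[K] F')
    (hφ : φ.toRingHom.IsIntegral) (g : SemilinearAut K F) (g' : SemilinearAut K F')
    (h : SemilinearAut.IntertwinesAlong φ.toRingHom g g') (D : Divisor K F) :
    Divisor.pullbackAlong φ hφ (g • D) = g' • Divisor.pullbackAlong φ hφ D := by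
  ext w
  rw [SemilinearAut.divisor_smul_apply, Divisor.pullbackAlong_apply, Divisor.pullbackAlong_apply,
    SemilinearAut.divisor_smul_apply, GH.restrictAlong_smul φ hφ g⁻¹ g'⁻¹ h.inv,
    GH.ramificationIndexAlong_smul φ g⁻¹ g'⁻¹ h.inv]

theorem GH.pushforwardAlong_smul (φ : F →ₐ[K] F')
    (hφ : φ.toRingHom.IsIntegral) (g : SemilinearAut K F) (g' : SemilinearAut K F')
    (h : SemilinearAut.IntertwinesAlong φ.toRingHom g g')
    (hdeg : ∀ v : Place K F, v.deg ≠ 0) (D : Divisor K F') :
    Divisor.pushforwardAlong φ hφ (g' • D) = g • Divisor.pushforwardAlong φ hφ D := by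
  induction D using Finsupp.induction with
  | zero => simp
  | single_add w n D _ _ ih =>
    rw [smul_add, map_add, map_add, smul_add, ih, SemilinearAut.smul_single,
      Divisor.pushforwardAlong_single, Divisor.pushforwardAlong_single,
      SemilinearAut.smul_single, GH.restrictAlong_smul φ hφ g g' h,
      GH.inertiaDegAlong_smul φ hφ g g' h hdeg]

theorem GH.correspondence_smul [HasPrincipalDivisors K F'] (φ ψ : F →ₐ[K] F')
    (hφ : φ.toRingHom.IsIntegral) (hψ : ψ.toRingHom.IsIntegral)
    (hFI : FundamentalIdentityAlong K φ hφ)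
    (hfin : FiniteAlong K ψ) (hN : NormFormulaAlong K ψ hfin)
    (g : SemilinearAut K F) (g' : SemilinearAut K F')
    (h1 : SemilinearAut.IntertwinesAlong φ.toRingHom g g')
    (h2 : SemilinearAut.IntertwinesAlong ψ.toRingHom g g')
    (hdeg : ∀ v : Place K F, v.deg ≠ 0) (x : Pic0 K F) :
    Pic0.correspondence φ ψ hφ hψ hFI hfin hN (g • x) =
      g • Pic0.correspondence φ ψ hφ hψ hFI hfin hN x := by
  obtain ⟨D, rfl⟩ := Pic0.mk_surjective x
  rw [SemilinearAut.pic0_smul_mk, Pic0.correspondence_mk, Pic0.correspondence_mk,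
    SemilinearAut.pic0_smul_mk]
  congr 1
  apply Subtype.ext
  rw [Pic0.coe_degZeroCorrespondence, SemilinearAut.coe_degZeroSMulHom,
    SemilinearAut.coe_degZeroSMulHom, Pic0.coe_degZeroCorrespondence,
    Divisor.correspondence_apply, Divisor.correspondence_apply,
    GH.pullbackAlong_smul φ hφ g g' h1, GH.pushforwardAlong_smul ψ hψ g g' h2 hdeg]

end abstract

theorem GH.coeffMap_qExpand {R S : Type*} [CommRing R] [CommRing S] (f : R →+* S) (n : ℕ)
    [NeZero n] (x : LaurentSeries R) : coeffMap f (qExpand R n x) = qExpand S n (coeffMap f x) := by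
  ext k
  by_cases hk : (n : ℤ) ∣ k
  · obtain ⟨m, rfl⟩ := hk
    rw [coeffMap_coeff, qExpand_coeff_mul, qExpand_coeff_mul, coeffMap_coeff]
  · rw [coeffMap_coeff, qExpand_coeff_of_not_dvd n _ hk, qExpand_coeff_of_not_dvd n _ hk,
      map_zero]

theorem GH.intertwines_alpha (N ℓ : ℕ) [NeZero N] [NeZero ℓ] (σ : GQ) :
    SemilinearAut.IntertwinesAlong (heckeAlphaBar Qbar N ℓ).toRingHom
      (arithmeticGalois (modularFunctionFieldFull N) σ)
      (arithmeticGalois (modularFunctionFieldFull (N * ℓ)) σ) := by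
  intro x
  apply Subtype.ext
  show ((arithmeticGalois (modularFunctionFieldFull (N * ℓ)) σ • (heckeAlphaBar Qbar N ℓ x) :
      laurentBaseChange Qbar (modularFunctionFieldFull (N * ℓ))) : LaurentSeries Qbar) =
    ((heckeAlphaBar Qbar N ℓ (arithmeticGalois (modularFunctionFieldFull N) σ • x) :
      laurentBaseChange Qbar (modularFunctionFieldFull (N * ℓ))) : LaurentSeries Qbar)
  rw [coe_arithmeticGalois_smul, coe_heckeAlphaBar, coe_heckeAlphaBar, coe_arithmeticGalois_smul]

theorem GH.intertwines_beta (N ℓ : ℕ) [NeZero N] [NeZero ℓ] (σ : GQ) :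
    SemilinearAut.IntertwinesAlong (heckeBetaBar Qbar N ℓ).toRingHom
      (arithmeticGalois (modularFunctionFieldFull N) σ)
      (arithmeticGalois (modularFunctionFieldFull (N * ℓ)) σ) := by
  intro x
  apply Subtype.ext
  show ((arithmeticGalois (modularFunctionFieldFull (N * ℓ)) σ • (heckeBetaBar Qbar N ℓ x) :
      laurentBaseChange Qbar (modularFunctionFieldFull (N * ℓ))) : LaurentSeries Qbar) =
    ((heckeBetaBar Qbar N ℓ (arithmeticGalois (modularFunctionFieldFull N) σ • x) :
      laurentBaseChange Qbar (modularFunctionFieldFull (N * ℓ))) : LaurentSeries Qbar)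
  rw [coe_arithmeticGalois_smul, coe_heckeBetaBar, coe_heckeBetaBar, coe_arithmeticGalois_smul,
    GH.coeffMap_qExpand]

theorem galois_hecke_comm (N : ℕ) [NeZero N] (ℓ : Nat.Primes) (σ : GQ) (x : JZero N) :
    heckeOperatorBar N ℓ (σ • x) = σ • heckeOperatorBar N ℓ x := by
  haveI : NeZero (ℓ : ℕ) := ⟨ℓ.2.ne_zero⟩
  rw [heckeOperatorBar_apply, heckeOperatorBar_apply]
  by_cases h : HeckeInputsAlong Qbar N ℓ
  · obtain ⟨hα, hβ, hP, hfin, hFI, hN⟩ := h
    rw [heckeOperatorAlong_eq hα hβ hFI hfin hN]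
    exact GH.correspondence_smul _ _ hβ hα hFI hfin hN _ _ (GH.intertwines_beta N ℓ σ)
      (GH.intertwines_alpha N ℓ σ)
      (fun v => by rw [Fermat.Agent.S24Lib.deg_eq_one (Fermat.Agent.S24Lib.isFF_bar N) v]; simp) x
  · rw [heckeOperatorAlong_of_not h]
    simp

end Fermat.Agent.S29Lib
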