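import Mathlib
import Fermat.Agent.S22
import Fermat.Agent.S49.Hecke
import Fermat.Prelude.Def_FLTPrelim_ModularRep

/-!
# S29 wiring, leaf (IN): Hecke eigenvalues of normalized eigenforms are algebraic integers
-/

set_option autoImplicit false

namespace Fermat.Agent.S29Lib

open CuspForm ModularFormClass CongruenceSubgroup Polynomial
open P2MW.S_CuspForm_intLattice_fg.W3WsD (qCoeff_add)
open Fermat.Agent.S49Lib

theorem IN.coeff_identity {N : ℕ} {g : CuspForm (Gamma0 N) 2}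
    (hg : g.IsNormalizedEigenform) (ℓ : ℕ) (hℓ : ℓ.Prime) (hℓN : ¬ ℓ ∣ N) (n : ℕ) :
    qCoeff ⇑g (ℓ * n) + (ℓ : ℂ) * (if ℓ ∣ n then qCoeff ⇑g (n / ℓ) else 0) =
      qCoeff ⇑g ℓ * qCoeff ⇑g n := by
  rcases Nat.eq_zero_or_pos n with rfl | hn
  · simp [qCoeff_zero_index]
  obtain ⟨r, m, hm, rfl⟩ := Nat.exists_eq_pow_mul_and_not_dvd hn.ne' ℓ hℓ.ne_one
  have hcop : ∀ j : ℕ, (ℓ ^ j).Coprime m := fun j =>
    Nat.Coprime.pow_left j ((Nat.Prime.coprime_iff_not_dvd hℓ).2 hm)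
  cases r with
  | zero =>
    have h1 : ¬ ℓ ∣ ℓ ^ 0 * m := by simpa using hm
    rw [if_neg h1, mul_zero, add_zero, pow_zero, one_mul]
    have := hg.qCoeff_mul_of_coprime ℓ m (by simpa using hcop 1)
    exact this
  | succ r =>
    have h1 : ℓ ∣ ℓ ^ (r + 1) * m := Dvd.dvd.mul_right (dvd_pow_self ℓ (Nat.succ_ne_zero r)) m
    have h2 : ℓ ^ (r + 1) * m / ℓ = ℓ ^ r * m := by
      rw [pow_succ', mul_assoc, Nat.mul_div_cancel_left _ hℓ.pos]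
    have h3 : ℓ * (ℓ ^ (r + 1) * m) = ℓ ^ (r + 2) * m := by ring
    rw [if_pos h1, h2, h3, hg.qCoeff_mul_of_coprime _ _ (hcop (r + 2)),
      hg.qCoeff_mul_of_coprime _ _ (hcop r), hg.qCoeff_mul_of_coprime _ _ (hcop (r + 1)),
      hg.qCoeff_prime_pow_of_not_dvd ℓ r hℓ hℓN]
    ring

theorem heckeTLin_eq_smul {N : ℕ} [NeZero N] {g : CuspForm (Gamma0 N) 2}
    (hg : g.IsNormalizedEigenform) (ℓ : ℕ) (hℓ : ℓ.Prime) (hℓN : ¬ ℓ ∣ N) :
    heckeTLin 2 hℓ hℓN g = qCoeff ⇑g ℓ • g := by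
  have h : heckeTLin 2 hℓ hℓN g + (-(qCoeff ⇑g ℓ)) • g = 0 := by
    apply eq_zero_of_qCoeff_eq_zero
    intro n
    rw [qCoeff_add, qCoeff_heckeTLin, qCoeff_smul, IN.coeff_identity hg ℓ hℓ hℓN n]
    ring
  rw [neg_smul] at h
  exact add_neg_eq_zero.1 h

theorem isIntegral_qCoeff {N : ℕ} [NeZero N] {g : CuspForm (CongruenceSubgroup.Gamma0 N) 2}
    (hg : g.IsNormalizedEigenform) (ℓ : ℕ) (hℓ : ℓ.Prime) (hℓN : ¬ ℓ ∣ N) :
    IsIntegral ℤ (ModularFormClass.qCoeff g ℓ) := by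
  have hfin : Module.Finite ℤ (heckeAlgebra N 2 ∅) := Fermat.Agent.S22.result N 2 ∅
  have h1 : IsIntegral ℤ (heckeAlgebra.T hℓ hℓN (Set.notMem_empty ℓ) : heckeAlgebra N 2 ∅) :=
    Algebra.IsIntegral.isIntegral _
  have h2 : IsIntegral ℤ (heckeTLin 2 hℓ hℓN) := h1.map (heckeAlgebra N 2 ∅).val
  obtain ⟨P, hmonic, hP⟩ := h2
  refine ⟨P, hmonic, ?_⟩
  have hev : Module.End.HasEigenvector (heckeTLin 2 hℓ hℓN) (qCoeff ⇑g ℓ) g :=
    ⟨Module.End.mem_eigenspace_iff.2 (heckeTLin_eq_smul hg ℓ hℓ hℓN), hg.ne_zero⟩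
  have h3 := Module.End.aeval_apply_of_hasEigenvector (p := P.map (algebraMap ℤ ℂ)) hev
  rw [Polynomial.aeval_map_algebraMap, Polynomial.aeval_def, hP, LinearMap.zero_apply] at h3
  rcases smul_eq_zero.1 h3.symm with h4 | h4
  · rw [Polynomial.eval₂_eq_eval_map]
    exact h4
  · exact absurd h4 hg.ne_zero

end Fermat.Agent.S29Lib
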