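import Mathlib
import Fermat.Agent.ES.KDefs
import Fermat.Agent.S22
import Fermat.Agent.S29.Integral

/-!
# S29 from the trunk, leaf (T4): the eigencharacter of a normalized eigenform
-/

set_option autoImplicit false
set_option synthInstance.maxHeartbeats 400000

namespace Fermat.Agent.S29Lib

open Polynomial Fermat.Agent.ESLib CuspForm ModularFormClass CongruenceSubgroup
open Fermat.Agent.S49Lib

theorem T4.exists_smul {N : ℕ} [NeZero N] {g : CuspForm (Gamma0 N) 2}
    (hg : g.IsNormalizedEigenform) (T : Module.End ℂ (CuspForm (Gamma0 N) 2))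
    (hT : T ∈ heckeAlgebra N 2 {q : ℕ | q ∣ N}) : ∃ c : ℂ, T g = c • g := by
  induction hT using Algebra.adjoin_induction with
  | mem x hx =>
    rcases hx with ⟨ℓ, hℓ, hℓN, -, rfl⟩ | ⟨q, hqN, -, hqS, rfl⟩
    · exact ⟨_, heckeTLin_eq_smul hg ℓ hℓ hℓN⟩
    · exact absurd hqN hqS
  | algebraMap n =>
    refine ⟨(n : ℂ), ?_⟩
    rw [Module.algebraMap_end_apply, Int.cast_smul_eq_zsmul]
  | add x y _ _ hx hy =>
    obtain ⟨c, hc⟩ := hx
    obtain ⟨d, hd⟩ := hy
    exact ⟨c + d, by rw [LinearMap.add_apply, hc, hd, add_smul]⟩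
  | mul x y _ _ hx hy =>
    obtain ⟨c, hc⟩ := hx
    obtain ⟨d, hd⟩ := hy
    exact ⟨d * c, by rw [Module.End.mul_apply, hd, map_smul, hc, smul_smul]⟩

theorem exists_eigenChar {N : ℕ} [NeZero N] {g : CuspForm (CongruenceSubgroup.Gamma0 N) 2}
    (hg : g.IsNormalizedEigenform) :
    ∃ lam : TT0 N →+* integralClosure ℤ ℂ, ∀ (ℓ : ℕ) (hℓ : ℓ.Prime) (hℓN : ¬ ℓ ∣ N),
      ((lam (CuspForm.heckeAlgebra.T hℓ hℓN hℓN) : integralClosure ℤ ℂ) : ℂ) =
        ModularFormClass.qCoeff g ℓ := by
  have huniq : ∀ x y : ℂ, x • g = y • g → x = y := fun x y h =>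
    smul_left_injective ℂ hg.ne_zero h
  choose c hc using fun T : TT0 N => T4.exists_smul hg T.1 T.2
  let lamC : TT0 N →+* ℂ :=
    { toFun := c
      map_one' := by
        apply huniq
        rw [← hc, one_smul]
        rfl
      map_mul' := fun S T => by
        apply huniq
        rw [← hc]
        show S.1 (T.1 g) = _
        rw [hc T, map_smul, hc S, smul_smul, mul_comm]
      map_zero' := by
        apply huniq
        rw [← hc, zero_smul]
        rfl
      map_add' := fun S T => by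
        apply huniq
        rw [← hc]
        show S.1 g + T.1 g = _
        rw [hc S, hc T, add_smul] }
  have hfin : Module.Finite ℤ (TT0 N) := Fermat.Agent.S22.result N 2 _
  have hint : ∀ T : TT0 N, lamC T ∈ integralClosure ℤ ℂ := fun T =>
    (Algebra.IsIntegral.isIntegral (R := ℤ) T).map lamC.toIntAlgHom
  refine ⟨lamC.codRestrict (integralClosure ℤ ℂ) hint, fun ℓ hℓ hℓN => ?_⟩
  show c (CuspForm.heckeAlgebra.T hℓ hℓN hℓN) = _
  apply huniq
  rw [← hc]
  exact heckeTLin_eq_smul hg ℓ hℓ hℓN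

end Fermat.Agent.S29Lib
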