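import Mathlib
import Fermat.Agent.ES.KDefs

/-!
# S29 from the trunk, leaf (T1): an element killing `Λ/p` lies in the kernel of every character
to a field of characteristic `p`
-/

set_option autoImplicit false
set_option synthInstance.maxHeartbeats 400000

namespace Fermat.Agent.S29Lib

open Polynomial Fermat.Agent.ESLib

theorem T1.map_scaleRoots (p : ℕ) {k : Type} [Field k] [CharP k p] (Q : ℤ[X]) (hQ : Q.Monic) :
    (scaleRoots Q (p : ℤ)).map (Int.castRingHom k) = X ^ Q.natDegree := by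
  ext i
  rw [coeff_map, coeff_scaleRoots, coeff_X_pow]
  rcases lt_trichotomy i Q.natDegree with h | h | h
  · rw [if_neg h.ne]
    have h1 : ((p : ℤ) : k) = 0 := by
      rw [Int.cast_natCast]; exact CharP.cast_eq_zero k p
    rw [map_mul, map_pow, eq_intCast (Int.castRingHom k) (p : ℤ), h1,
      zero_pow (by omega), mul_zero]
  · rw [if_pos h, h, Nat.sub_self, pow_zero, mul_one, hQ.coeff_natDegree, map_one]
  · rw [if_neg h.ne', coeff_eq_zero_of_natDegree_lt h, zero_mul, map_zero]

theorem map_eq_zero_of_redM_eq_zero {R : Type} [CommRing R] {r : ℕ}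
    (Θ : R →+* Matrix (Fin r) (Fin r) ℤ) (hΘ : Function.Injective Θ)
    (p : ℕ) [Fact p.Prime] {k : Type} [Field k] [CharP k p] (χ : R →+* k)
    (s : R) (hs : redM p 1 (Θ s) = 0) : χ s = 0 := by
  have hp : p.Prime := Fact.out
  have hp0 : (p : ℤ) ≠ 0 := by exact_mod_cast hp.ne_zero
  -- `Θ s = p B`
  have hdvd : ∀ i j, (p : ℤ) ∣ Θ s i j := by
    intro i j
    have h1 := congrFun (congrFun hs i) j
    simp only [redM, Matrix.map_apply, Matrix.zero_apply, eq_intCast] at h1
    rw [ZMod.intCast_zmod_eq_zero_iff_dvd] at h1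
    simpa using h1
  set B : Matrix (Fin r) (Fin r) ℤ := Matrix.of fun i j => Θ s i j / (p : ℤ) with hB
  have hΘs : Θ s = algebraMap ℤ (Matrix (Fin r) (Fin r) ℤ) (p : ℤ) * B := by
    rw [← Algebra.smul_def]
    ext i j
    simp only [hB, Matrix.smul_apply, Matrix.of_apply, smul_eq_mul]
    exact (Int.mul_ediv_cancel' (hdvd i j)).symm
  set Q : ℤ[X] := B.charpoly with hQ
  have hQm : Q.Monic := Matrix.charpoly_monic B
  have h0 : eval₂ (algebraMap ℤ (Matrix (Fin r) (Fin r) ℤ)) B Q = 0 := by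
    rw [← aeval_def]; exact Matrix.aeval_self_charpoly B
  have h1 : aeval (Θ s) (scaleRoots Q (p : ℤ)) = 0 := by
    rw [aeval_def, hΘs, scaleRoots_eval₂_mul_of_commute _ _ _ (Algebra.commutes _ _)
      (fun a b => Algebra.commutes _ _), h0, mul_zero]
  have h2 : aeval s (scaleRoots Q (p : ℤ)) = 0 := by
    apply hΘ
    rw [map_zero, ← h1]
    exact (aeval_algHom_apply Θ.toIntAlgHom s _).symm
  have h3 : aeval (χ s) (scaleRoots Q (p : ℤ)) = 0 := by
    have := aeval_algHom_apply χ.toIntAlgHom s (scaleRoots Q (p : ℤ))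
    rw [h2, map_zero] at this
    exact this
  rw [aeval_def, eval₂_eq_eval_map] at h3
  have h4 : algebraMap ℤ k = Int.castRingHom k := rfl
  rw [h4, T1.map_scaleRoots p Q hQm, eval_pow, eval_X] at h3
  exact eq_zero_of_pow_eq_zero h3

end Fermat.Agent.S29Lib
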