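import Mathlib

/-!
# S29 from the trunk, leaf (T2): existence of a nonzero element killed by an ideal
-/

set_option autoImplicit false

namespace Fermat.Agent.S29Lib

theorem exists_ne_zero_forall_smul_eq_zero {R M : Type*} [CommRing R] [AddCommGroup M] [Module R M]
    [Finite M] (I : Ideal R) (hI : I ≠ ⊤) (h : ∀ s : R, (∀ x : M, s • x = 0) → s ∈ I) :
    ∃ x : M, x ≠ 0 ∧ ∀ t ∈ I, t • x = 0 := by
  by_contra hcon
  push Not at hcon
  have H : ∀ x : M, (∀ t ∈ I, t • x = 0) → x = 0 := by
    intro x hx
    by_contra hx0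
    obtain ⟨t, ht, htx⟩ := hcon x hx0
    exact htx (hx t ht)
  have Hn : ∀ n : ℕ, ∀ x : M, (∀ t ∈ I ^ n, t • x = 0) → x = 0 := by
    intro n
    induction n with
    | zero =>
      intro x hx
      have := hx 1 (by simp)
      simpa using this
    | succ n ih =>
      intro x hx
      apply ih
      intro t ht
      apply H
      intro u hu
      rw [smul_smul]
      exact hx _ (by rw [pow_succ']; exact Ideal.mul_mem_mul hu ht)
  -- the chain `I ^ n • ⊤` stabilises
  have hart : IsArtinian R M := inferInstance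
  let f : ℕ →o (Submodule R M)ᵒᵈ :=
    { toFun := fun n => OrderDual.toDual (I ^ n • (⊤ : Submodule R M))
      monotone' := by
        intro a b hab
        show I ^ b • (⊤ : Submodule R M) ≤ I ^ a • (⊤ : Submodule R M)
        exact Submodule.smul_mono_left (Ideal.pow_le_pow_right hab) }
  obtain ⟨n, hn⟩ := IsArtinian.monotone_stabilizes f
  have hst : I ^ n • (⊤ : Submodule R M) = I ^ (n + 1) • (⊤ : Submodule R M) :=
    hn (n + 1) (Nat.le_succ n)
  have hle : I ^ n • (⊤ : Submodule R M) ≤ I • (I ^ n • (⊤ : Submodule R M)) := by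
    rw [← Submodule.mul_smul, ← pow_succ', ← hst]
  have hfg : (I ^ n • (⊤ : Submodule R M)).FG := Submodule.FG.of_finite
  obtain ⟨s, hs1, hs⟩ :=
    Submodule.exists_sub_one_mem_and_smul_eq_zero_of_fg_of_le_smul I _ hfg hle
  have hsI : s ∈ I := by
    apply h
    intro x
    apply Hn n
    intro t ht
    rw [smul_comm]
    exact hs _ (Submodule.smul_mem_smul ht trivial)
  apply hI
  rw [Ideal.eq_top_iff_one]
  have := I.sub_mem hsI hs1
  simpa using this

end Fermat.Agent.S29Lib
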