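import Mathlib
import Fermat.Agent.ES.KDefs
import Fermat.Agent.Lib.QuadRep.Engine
import Fermat.Agent.S29.Kills
import Fermat.Agent.S29.Socle

/-! S29 wiring, leaf (T3): from the trunk data (at `n = 1`) to a residual representation. -/

set_option autoImplicit false
set_option linter.style.haveILetI false
set_option synthInstance.maxHeartbeats 400000

namespace Fermat.Agent.S29Lib

open Polynomial Fermat.Agent.ESLib

local notation "Qbar" => AlgebraicClosure ℚ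
local notation "GQ" => (AlgebraicClosure ℚ ≃ₐ[ℚ] AlgebraicClosure ℚ)

section

variable {R : Type} [CommRing R] {r : ℕ} (Θ : R →+* Matrix (Fin r) (Fin r) ℤ) (p : ℕ)

/-- a copy of `(ℤ/p)^r`, to carry the `R`-module structure given by `Θ` -/
def T3.Lam (_ : R →+* Matrix (Fin r) (Fin r) ℤ) (p : ℕ) : Type := Fin r → ZMod (p ^ 1)

instance : AddCommGroup (T3.Lam Θ p) := inferInstanceAs (AddCommGroup (Fin r → ZMod (p ^ 1)))

instance : Module (ZMod (p ^ 1)) (T3.Lam Θ p) :=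
  inferInstanceAs (Module (ZMod (p ^ 1)) (Fin r → ZMod (p ^ 1)))

/-- the action of matrices on `(ℤ/p)^r` -/
noncomputable def T3.act :
    Matrix (Fin r) (Fin r) (ZMod (p ^ 1)) →+* Module.End (ZMod (p ^ 1)) (T3.Lam Θ p) :=
  show Matrix (Fin r) (Fin r) (ZMod (p ^ 1)) →+*
      Module.End (ZMod (p ^ 1)) (Fin r → ZMod (p ^ 1)) from
    (Matrix.toLinAlgEquiv' : Matrix (Fin r) (Fin r) (ZMod (p ^ 1)) ≃ₐ[ZMod (p ^ 1)] _).toAlgHom.toRingHom

theorem T3.act_injective : Function.Injective (T3.act Θ p) :=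
  (Matrix.toLinAlgEquiv' : Matrix (Fin r) (Fin r) (ZMod (p ^ 1)) ≃ₐ[ZMod (p ^ 1)] _).injective

/-- the action of `R` on `(ℤ/p)^r` -/
noncomputable def T3.toEnd : R →+* Module.End (ZMod (p ^ 1)) (T3.Lam Θ p) :=
  (T3.act Θ p).comp ((Int.castRingHom (ZMod (p ^ 1))).mapMatrix.comp Θ)

noncomputable instance : Module R (T3.Lam Θ p) := Module.compHom _ (T3.toEnd Θ p)

theorem T3.smul_def (T : R) (x : T3.Lam Θ p) : T • x = T3.act Θ p (redM p 1 (Θ T)) x := rfl

/-- the Galois action on the `I`-torsion of `(ℤ/p)^r` -/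
noncomputable def T3.rho (I : Ideal R) (ρ : GQ →* Matrix (Fin r) (Fin r) (ZMod (p ^ 1)))
    (hcomm : ∀ (σ : GQ) (T : R), ρ σ * redM p 1 (Θ T) = redM p 1 (Θ T) * ρ σ) :
    GQ →* Module.End (R ⧸ I) (Submodule.torsionBySet R (T3.Lam Θ p) (I : Set R)) where
  toFun σ :=
    { toFun := fun x => ⟨T3.act Θ p (ρ σ) (x : T3.Lam Θ p), by
        rw [Submodule.mem_torsionBySet_iff]
        intro a
        have hx := (Submodule.mem_torsionBySet_iff _ _).1 x.2 a
        rw [T3.smul_def] at hx ⊢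
        rw [← Module.End.mul_apply, ← map_mul, ← hcomm, map_mul, Module.End.mul_apply, hx,
          map_zero]⟩
      map_add' := fun x y => Subtype.ext (map_add _ _ _)
      map_smul' := fun c x => by
        obtain ⟨a, rfl⟩ := Ideal.Quotient.mk_surjective c
        apply Subtype.ext
        simp only [Submodule.torsionBySet.mk_smul, RingHom.id_apply, Submodule.coe_smul]
        rw [T3.smul_def, T3.smul_def, ← Module.End.mul_apply, ← map_mul, hcomm, map_mul,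
          Module.End.mul_apply] }
  map_one' := by
    apply LinearMap.ext
    intro x
    apply Subtype.ext
    show T3.act Θ p (ρ 1) (x : T3.Lam Θ p) = x
    rw [map_one, map_one, Module.End.one_apply]
  map_mul' σ τ := by
    apply LinearMap.ext
    intro x
    apply Subtype.ext
    show T3.act Θ p (ρ (σ * τ)) (x : T3.Lam Θ p) =
      T3.act Θ p (ρ σ) (T3.act Θ p (ρ τ) (x : T3.Lam Θ p))
    rw [map_mul, map_mul, Module.End.mul_apply]

theorem T3.coe_rho (I : Ideal R) (ρ : GQ →* Matrix (Fin r) (Fin r) (ZMod (p ^ 1)))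
    (hcomm : ∀ (σ : GQ) (T : R), ρ σ * redM p 1 (Θ T) = redM p 1 (Θ T) * ρ σ) (σ : GQ)
    (x : Submodule.torsionBySet R (T3.Lam Θ p) (I : Set R)) :
    ((T3.rho Θ p I ρ hcomm σ x : Submodule.torsionBySet R (T3.Lam Θ p) (I : Set R)) :
      T3.Lam Θ p) = T3.act Θ p (ρ σ) (x : T3.Lam Θ p) := rfl

end

theorem residual_of_trunk {R : Type} [CommRing R] [Module.Finite ℤ R] {r : ℕ}
    (Θ : R →+* Matrix (Fin r) (Fin r) ℤ) (hΘ : Function.Injective Θ)
    (p : ℕ) [Fact p.Prime] {k : Type} [Field k] [CharP k p] (χ : R →+* k)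
    (ρ : GQ →* Matrix (Fin r) (Fin r) (ZMod (p ^ 1)))
    (hlev : GaloisFactorsThroughFiniteLevel ρ)
    (hcomm : ∀ (σ : GQ) (T : R), ρ σ * redM p 1 (Θ T) = redM p 1 (Θ T) * ρ σ)
    (D : ℕ) (hD : D ≠ 0) (hpD : p ∣ D) (t : ℕ → R)
    (hunr : ∀ q : ℕ, q.Prime → ¬ q ∣ D → ∀ A : ValuationSubring Qbar, A.LiesOverPrime q →
      ∀ σ ∈ A.inertiaSubgroupIn ℚ, ρ σ = 1)
    (hes : ∀ ℓ : ℕ, ℓ.Prime → ¬ ℓ ∣ D → ∀ A : ValuationSubring Qbar, A.LiesOverPrime ℓ →
      ∀ σ : GQ, A.IsFrobeniusAt σ ℓ →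
        ρ σ * ρ σ - redM p 1 (Θ (t ℓ)) * ρ σ + (ℓ : Matrix (Fin r) (Fin r) (ZMod (p ^ 1))) = 0) :
    ∃ ρ' : ResidualGaloisRep k,
      (∀ ℓ : ℕ, ℓ.Prime → ¬ ℓ ∣ D → ρ'.IsUnramifiedAt ℓ) ∧
      ∀ ℓ : ℕ, ℓ.Prime → ¬ ℓ ∣ D → ∀ A : ValuationSubring Qbar, A.LiesOverPrime ℓ →
        ∀ σ : GQ, A.IsFrobeniusAt σ ℓ →
          LinearMap.charpoly (ρ'.ρ σ) = X ^ 2 - C (χ (t ℓ)) * X + C (ℓ : k) := by
  have hp : p.Prime := Fact.out
  haveI : NeZero (p ^ 1) := ⟨pow_ne_zero 1 hp.ne_zero⟩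
  set I : Ideal R := RingHom.ker χ with hI
  haveI hIprime : I.IsPrime := RingHom.ker_isPrime χ
  haveI : Algebra.IsIntegral ℤ R := Algebra.IsIntegral.of_finite ℤ R
  haveI hImax : I.IsMaximal := by
    apply Ideal.isMaximal_of_isIntegral_of_isMaximal_comap (R := ℤ) I
    have h1 : I.comap (algebraMap ℤ R) = Ideal.span {(p : ℤ)} := by
      ext n
      rw [Ideal.mem_comap, hI, RingHom.mem_ker, Ideal.mem_span_singleton, eq_intCast, map_intCast,
        CharP.intCast_eq_zero_iff k p]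
    rw [h1]
    exact Int.ideal_span_isMaximal_of_prime p
  letI : Field (R ⧸ I) := Ideal.Quotient.field I
  let ι : R ⧸ I →+* k := RingHom.kerLift χ
  have hι : Function.Injective ι := RingHom.kerLift_injective χ
  haveI : CharP (R ⧸ I) p := (RingHom.charP_iff ι hι p).2 inferInstance
  haveI : Finite (T3.Lam Θ p) := inferInstanceAs (Finite (Fin r → ZMod (p ^ 1)))
  obtain ⟨x₀, hx₀, hx₀I⟩ := exists_ne_zero_forall_smul_eq_zero (M := T3.Lam Θ p) I
    (RingHom.ker_ne_top χ) (by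
      intro s hs
      rw [hI, RingHom.mem_ker]
      apply map_eq_zero_of_redM_eq_zero Θ hΘ p χ s
      apply T3.act_injective Θ p
      rw [map_zero]
      exact LinearMap.ext hs)
  haveI : Nontrivial (Submodule.torsionBySet R (T3.Lam Θ p) (I : Set R)) :=
    ⟨⟨⟨x₀, (Submodule.mem_torsionBySet_iff _ _).2 fun a => hx₀I a a.2⟩, 0,
      fun h => hx₀ (congrArg Subtype.val h)⟩⟩
  have hone : ∀ σ, ρ σ = 1 → T3.rho Θ p I ρ hcomm σ = 1 := by
    intro σ hσ
    apply LinearMap.ext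
    intro x
    apply Subtype.ext
    rw [T3.coe_rho, hσ, map_one]
    rfl
  obtain ⟨ρ₀, hρ₀u, hρ₀c⟩ := QRLib.exists_residualRep_of_quadratic (k := R ⧸ I) p
    (T3.rho Θ p I ρ hcomm)
    (by
      obtain ⟨L, hL, h⟩ := hlev
      exact ⟨L, hL, fun σ hσ => hone σ (h σ hσ)⟩)
    D hD hpD (fun ℓ => Ideal.Quotient.mk I (t ℓ))
    (fun ℓ hℓ hℓD A hA σ hσ => hone σ (hunr ℓ hℓ hℓD A hA σ hσ))
    (by
      intro ℓ hℓ hℓD A hA σ hσ
      apply LinearMap.ext
      intro x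
      apply Subtype.ext
      have h := congrArg (fun M => T3.act Θ p M (x : T3.Lam Θ p)) (hes ℓ hℓ hℓD A hA σ hσ)
      simp only [map_add, map_sub, map_mul, map_natCast, map_zero, LinearMap.add_apply,
        LinearMap.sub_apply, Module.End.mul_apply, LinearMap.zero_apply] at h
      have hcast : ((ℓ : R ⧸ I)) = Ideal.Quotient.mk I (ℓ : R) := by simp
      simp only [LinearMap.add_apply, LinearMap.sub_apply, Module.End.mul_apply,
        LinearMap.smul_apply, Module.End.one_apply, LinearMap.zero_apply, hcast,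
        Submodule.torsionBySet.mk_smul, Submodule.coe_add, Submodule.coe_sub, Submodule.coe_smul,
        T3.coe_rho, Submodule.coe_zero]
      rw [T3.smul_def, T3.smul_def, ← h]
      congr 2
      have h2 : redM p 1 (Θ (ℓ : R)) = (ℓ : Matrix (Fin r) (Fin r) (ZMod (p ^ 1))) := by
        rw [map_natCast]
        exact map_natCast (Int.castRingHom (ZMod (p ^ 1))).mapMatrix ℓ
      rw [h2, map_natCast])
  letI : Algebra (R ⧸ I) k := ι.toAlgebra
  refine ⟨ρ₀.baseChangeAlong ι, ?_, ?_⟩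
  · intro ℓ hℓ hℓD A hA σ hσ
    show (ρ₀.ρ σ).baseChange k = 1
    rw [hρ₀u ℓ hℓ hℓD A hA σ hσ, LinearMap.baseChange_one]
  · intro ℓ hℓ hℓD A hA σ hσ
    show LinearMap.charpoly ((ρ₀.ρ σ).baseChange k) = _
    rw [LinearMap.charpoly_baseChange, hρ₀c ℓ hℓ hℓD A hA σ hσ]
    have h1 : algebraMap (R ⧸ I) k (Ideal.Quotient.mk I (t ℓ)) = χ (t ℓ) :=
      RingHom.kerLift_mk χ (t ℓ)
    simp [h1]

end Fermat.Agent.S29Lib
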