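import Mathlib
import Fermat.Agent.ES.KDefs
import Fermat.Agent.S22
import Fermat.Agent.S29.Trunk
import Fermat.Agent.S29.EigenChar

/-!
# S29 from the trunk, leaf (T5): the residual representation attached to an eigenform
-/

set_option autoImplicit false
set_option synthInstance.maxHeartbeats 400000

namespace Fermat.Agent.S29Lib

open Polynomial Fermat.Agent.ESLib

local notation "Qbar" => AlgebraicClosure ℚ
local notation "GQ" => (AlgebraicClosure ℚ ≃ₐ[ℚ] AlgebraicClosure ℚ)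

/-- the trivial two-dimensional residual representation -/
noncomputable def T5.trivialRep (k : Type) [Field k] : ResidualGaloisRep k where
  V := Fin 2 → k
  finrank_eq := by simp
  ρ := 1
  factorsThroughFiniteLevel := ⟨⊥, inferInstance, fun _ _ => rfl⟩

theorem residual_of_esData
    (trunk : ∀ (N p : ℕ) [NeZero N] [Fact p.Prime], ∃ (r : ℕ)
      (Θ : TT0 N →+* Matrix (Fin r) (Fin r) ℤ)
      (ρ : (n : ℕ) → ESLib.GQ →* Matrix (Fin r) (Fin r) (ZMod (p ^ n))), IsESData N p r Θ ρ)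
    {N : ℕ} {g : CuspForm (CongruenceSubgroup.Gamma0 N) 2} (hg : g.IsNormalizedEigenform)
    {p : ℕ} (hp : p.Prime) {k : Type} [Field k] [CharP k p]
    (φ : integralClosure ℤ ℂ →+* k) :
    ∃ ρ : ResidualGaloisRep k, ρ.IsAttachedTo g φ ∧
      ∀ ℓ : ℕ, ℓ.Prime → ¬ ℓ ∣ N * p → ρ.IsUnramifiedAt ℓ := by
  rcases Nat.eq_zero_or_pos N with rfl | hN
  · refine ⟨T5.trivialRep k, ?_, ?_⟩
    · intro ℓ _ hℓ
      exact absurd (dvd_zero ℓ) hℓ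
    · intro ℓ _ _ A _ σ _
      rfl
  have : NeZero N := ⟨hN.ne'⟩
  have : Fact p.Prime := ⟨hp⟩
  obtain ⟨r, Θ, ρ, hES⟩ := trunk N p
  obtain ⟨lam, hlam⟩ := exists_eigenChar hg
  have hfin : Module.Finite ℤ (TT0 N) := Fermat.Agent.S22.result N 2 _
  classical
  let t : ℕ → TT0 N := fun ℓ =>
    if h : ℓ.Prime ∧ ¬ ℓ ∣ N then CuspForm.heckeAlgebra.T h.1 h.2 h.2 else 0
  have ht : ∀ (ℓ : ℕ) (hℓ : ℓ.Prime) (hℓN : ¬ ℓ ∣ N),
      t ℓ = CuspForm.heckeAlgebra.T hℓ hℓN hℓN := fun ℓ hℓ hℓN => dif_pos ⟨hℓ, hℓN⟩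
  have hsplit : ∀ ℓ : ℕ, ¬ ℓ ∣ N * p → ¬ ℓ ∣ N ∧ ℓ ≠ p := fun ℓ h =>
    ⟨fun h1 => h (Dvd.dvd.mul_right h1 p), fun h1 => h (h1 ▸ Dvd.intro_left N rfl)⟩
  obtain ⟨ρ', hunr, hchar⟩ := residual_of_trunk Θ hES.inj p (φ.comp lam) (ρ 1) (hES.level 1)
    (hES.comm 1) (N * p) (Nat.mul_ne_zero hN.ne' hp.ne_zero) (Dvd.intro_left N rfl) t
    (hES.unram 1)
    (fun ℓ hℓ hℓD A hA σ hσ => by
      rw [ht ℓ hℓ (hsplit ℓ hℓD).1]
      exact hES.es 1 ℓ hℓ (hsplit ℓ hℓD).1 (hsplit ℓ hℓD).2 A hA σ hσ)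
  refine ⟨ρ', ?_, hunr⟩
  intro ℓ hℓ hℓN hℓk A hA σ hσ
  have hℓD : ¬ ℓ ∣ N * p := by
    intro h
    rcases (Nat.Prime.dvd_mul hℓ).1 h with h1 | h1
    · exact hℓN h1
    · have h2 : ℓ = p := (Nat.prime_dvd_prime_iff_eq hℓ hp).1 h1
      apply hℓk
      rw [h2]
      exact CharP.cast_eq_zero k p
  refine ⟨lam (CuspForm.heckeAlgebra.T hℓ hℓN hℓN), hlam ℓ hℓ hℓN, ?_⟩
  rw [hchar ℓ hℓ hℓD A hA σ hσ, ht ℓ hℓ hℓN]
  rfl

end Fermat.Agent.S29Lib
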