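import Mathlib
import Fermat.Prelude.Def_GaloisRep_Residual

/-!
# S29 wiring, leaf (AB): from an eigenvector in `k ⊗ Λ` to a `k[G_ℚ]`-module with quadratic relations
-/

set_option autoImplicit false

namespace Fermat.Agent.S29Lib

open Polynomial
open scoped TensorProduct

local notation "Qbar" => AlgebraicClosure ℚ
local notation "GQ" => (AlgebraicClosure ℚ ≃ₐ[ℚ] AlgebraicClosure ℚ)

/-- base change of a representation -/
noncomputable def AB.bc (k : Type) [Field k] (p : ℕ) [Algebra (ZMod p) k] {Λ : Type}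
    [AddCommGroup Λ] [Module (ZMod p) Λ] (r : GQ →* Module.End (ZMod p) Λ) :
    GQ →* Module.End k (k ⊗[ZMod p] Λ) where
  toFun σ := (r σ).baseChange k
  map_one' := by rw [map_one, LinearMap.baseChange_one]
  map_mul' σ τ := by rw [map_mul, LinearMap.baseChange_mul]

theorem AB.bc_apply (k : Type) [Field k] (p : ℕ) [Algebra (ZMod p) k] {Λ : Type}
    [AddCommGroup Λ] [Module (ZMod p) Λ] (r : GQ →* Module.End (ZMod p) Λ) (σ : GQ) :
    AB.bc k p r σ = (r σ).baseChange k := rfl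

theorem AB.exists_level {k : Type} [Field k] (p : ℕ) [Algebra (ZMod p) k] {Λ : Type}
    [AddCommGroup Λ] [Module (ZMod p) Λ] (r : GQ →* Module.End (ZMod p) Λ)
    (hopen : ∀ x : Λ, ∃ L : IntermediateField ℚ Qbar, FiniteDimensional ℚ L ∧
      ∀ σ : GQ, (∀ y ∈ L, σ y = y) → r σ x = x) (v : k ⊗[ZMod p] Λ) :
    ∃ L : IntermediateField ℚ Qbar, FiniteDimensional ℚ L ∧
      ∀ σ : GQ, (∀ y ∈ L, σ y = y) → AB.bc k p r σ v = v := by
  induction v using TensorProduct.induction_on with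
  | zero => exact ⟨⊥, inferInstance, fun σ _ => map_zero _⟩
  | tmul c x =>
    obtain ⟨L, hL, h⟩ := hopen x
    exact ⟨L, hL, fun σ hσ => by rw [AB.bc_apply, LinearMap.baseChange_tmul, h σ hσ]⟩
  | add a b iha ihb =>
    obtain ⟨L1, h1, e1⟩ := iha
    obtain ⟨L2, h2, e2⟩ := ihb
    refine ⟨L1 ⊔ L2, IntermediateField.finiteDimensional_sup L1 L2, fun σ hσ => ?_⟩
    rw [map_add, e1 σ fun y hy => hσ y ((le_sup_left : L1 ≤ L1 ⊔ L2) hy),
      e2 σ fun y hy => hσ y ((le_sup_right : L2 ≤ L1 ⊔ L2) hy)]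

theorem exists_module_of_eigenvector {k : Type} [Field k] (p : ℕ) [Fact p.Prime]
    [Algebra (ZMod p) k] {Λ : Type} [AddCommGroup Λ] [Module (ZMod p) Λ]
    (r : GQ →* Module.End (ZMod p) Λ) (T : Nat.Primes → Module.End (ZMod p) Λ)
    (hcomm : ∀ ℓ σ, T ℓ * r σ = r σ * T ℓ)
    (hopen : ∀ x : Λ, ∃ L : IntermediateField ℚ Qbar, FiniteDimensional ℚ L ∧
      ∀ σ : GQ, (∀ y ∈ L, σ y = y) → r σ x = x)
    (D : ℕ) (a : ℕ → k)
    (hunr : ∀ ℓ : ℕ, ℓ.Prime → ¬ ℓ ∣ D → ∀ A : ValuationSubring Qbar, A.LiesOverPrime ℓ →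
      ∀ σ ∈ A.inertiaSubgroupIn ℚ, r σ = 1)
    (hquad : ∀ (ℓ : ℕ) (hℓ : ℓ.Prime), ¬ ℓ ∣ D → ∀ A : ValuationSubring Qbar,
      A.LiesOverPrime ℓ → ∀ σ : GQ, A.IsFrobeniusAt σ ℓ →
        r σ * r σ - T ⟨ℓ, hℓ⟩ * r σ + (ℓ : ZMod p) • (1 : Module.End (ZMod p) Λ) = 0)
    (v : k ⊗[ZMod p] Λ) (hv : v ≠ 0)
    (hev : ∀ ℓ : Nat.Primes, ¬ (ℓ : ℕ) ∣ D → (T ℓ).baseChange k v = a ℓ • v) :
    ∃ (V : Type) (_ : AddCommGroup V) (_ : Module k V) (_ : Nontrivial V)
      (ρ : GQ →* Module.End k V), GaloisFactorsThroughFiniteLevel ρ ∧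
      (∀ ℓ : ℕ, ℓ.Prime → ¬ ℓ ∣ D → ∀ A : ValuationSubring Qbar, A.LiesOverPrime ℓ →
        ∀ σ ∈ A.inertiaSubgroupIn ℚ, ρ σ = 1) ∧
      (∀ ℓ : ℕ, ℓ.Prime → ¬ ℓ ∣ D → ∀ A : ValuationSubring Qbar, A.LiesOverPrime ℓ →
        ∀ σ : GQ, A.IsFrobeniusAt σ ℓ →
          ρ σ * ρ σ - a ℓ • ρ σ + (ℓ : k) • (1 : Module.End k V) = 0) := by
  set R : GQ →* Module.End k (k ⊗[ZMod p] Λ) := AB.bc k p r with hR
  set V : Submodule k (k ⊗[ZMod p] Λ) := Submodule.span k (Set.range fun σ => R σ v) with hV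
  have hgen : ∀ σ, R σ v ∈ V := fun σ => Submodule.subset_span ⟨σ, rfl⟩
  have hstab : ∀ σ, ∀ w ∈ V, R σ w ∈ V := by
    intro σ w hw
    induction hw using Submodule.span_induction with
    | mem x hx =>
      obtain ⟨τ, rfl⟩ := hx
      have : R σ (R τ v) = R (σ * τ) v := by rw [map_mul]; rfl
      rw [this]
      exact hgen _
    | zero => rw [map_zero]; exact V.zero_mem
    | add x y _ _ hx hy => rw [map_add]; exact V.add_mem hx hy
    | smul c x _ hx => rw [map_smul]; exact V.smul_mem c hx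
  have hT : ∀ ℓ : Nat.Primes, ¬ (ℓ : ℕ) ∣ D → ∀ w ∈ V, (T ℓ).baseChange k w = a ℓ • w := by
    intro ℓ hℓ w hw
    induction hw using Submodule.span_induction with
    | mem x hx =>
      obtain ⟨τ, rfl⟩ := hx
      have e1 : (T ℓ).baseChange k (R τ v) = ((T ℓ * r τ).baseChange k) v := by
        rw [LinearMap.baseChange_mul]; rfl
      have e2 : ((r τ * T ℓ).baseChange k) v = R τ ((T ℓ).baseChange k v) := by
        rw [LinearMap.baseChange_mul]; rfl
      show (T ℓ).baseChange k (R τ v) = a ℓ • R τ v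
      rw [e1, hcomm, e2, hev ℓ hℓ, map_smul]
    | zero => rw [map_zero, smul_zero]
    | add x y _ _ hx hy => rw [map_add, hx, hy, smul_add]
    | smul c x _ hx => rw [map_smul, hx, smul_comm]
  let ρ : GQ →* Module.End k V :=
    { toFun := fun σ => (R σ).restrict (hstab σ)
      map_one' := by
        ext w
        simp
      map_mul' := fun σ τ => by
        ext w
        simp }
  have hρ : ∀ σ (w : V), ((ρ σ w : V) : k ⊗[ZMod p] Λ) = R σ w := fun σ w => rfl
  refine ⟨V, inferInstance, inferInstance, ⟨⟨⟨v, ?_⟩, 0, ?_⟩⟩, ρ, ?_, ?_, ?_⟩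
  · have := hgen 1
    rwa [map_one] at this
  · intro h
    exact hv (congrArg Subtype.val h)
  · -- finite level
    obtain ⟨L0, hL0, h0⟩ := AB.exists_level p r hopen v
    have : Algebra.IsAlgebraic ℚ Qbar := AlgebraicClosure.isAlgebraic ℚ
    have : IsAlgClosure ℚ Qbar := ⟨inferInstance, inferInstance⟩
    have : Normal ℚ Qbar := IsAlgClosure.normal ℚ Qbar
    have hLn : Normal ℚ (IntermediateField.normalClosure ℚ L0 Qbar) :=
      normalClosure.normal ℚ _ Qbar
    refine ⟨IntermediateField.normalClosure ℚ L0 Qbar,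
      normalClosure.is_finiteDimensional ℚ _ Qbar, fun σ hσ => ?_⟩
    have key : ∀ w ∈ V, R σ w = w := by
      intro w hw
      induction hw using Submodule.span_induction with
      | mem x hx =>
        obtain ⟨τ, rfl⟩ := hx
        have e1 : R (τ⁻¹ * σ * τ) v = v := by
          apply h0
          intro y hy
          have hy' : τ y ∈ IntermediateField.normalClosure ℚ L0 Qbar :=
            IntermediateField.normal_iff_forall_map_le'.1 hLn τ
              ((IntermediateField.mem_map _).2 ⟨y, L0.le_normalClosure hy, rfl⟩)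
          have e2 : σ (τ y) = τ y := hσ _ hy'
          show τ⁻¹ (σ (τ y)) = y
          rw [e2]
          exact τ.symm_apply_apply y
        show R σ (R τ v) = R τ v
        calc R σ (R τ v) = R (τ * (τ⁻¹ * σ * τ)) v := by
              rw [show τ * (τ⁻¹ * σ * τ) = σ * τ by group, map_mul]; rfl
          _ = R τ (R (τ⁻¹ * σ * τ) v) := by rw [map_mul]; rfl
          _ = R τ v := by rw [e1]
      | zero => rw [map_zero]
      | add x y _ _ hx hy => rw [map_add, hx, hy]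
      | smul c x _ hx => rw [map_smul, hx]
    ext w
    rw [hρ]
    exact key w w.2
  · intro ℓ hℓ hℓD A hA σ hσ
    ext w
    rw [hρ, hR, AB.bc_apply, hunr ℓ hℓ hℓD A hA σ hσ, LinearMap.baseChange_one]
    rfl
  · intro ℓ hℓ hℓD A hA σ hσ
    have h1 := congrArg (LinearMap.baseChange k) (hquad ℓ hℓ hℓD A hA σ hσ)
    rw [LinearMap.baseChange_add, LinearMap.baseChange_sub, LinearMap.baseChange_mul,
      LinearMap.baseChange_mul, LinearMap.baseChange_smul, LinearMap.baseChange_one,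
      LinearMap.baseChange_zero] at h1
    ext w
    have h2 := LinearMap.congr_fun h1 (w : k ⊗[ZMod p] Λ)
    have h3 : (T ⟨ℓ, hℓ⟩).baseChange k (R σ w) = a ℓ • R σ w :=
      hT ⟨ℓ, hℓ⟩ hℓD _ (hstab σ w w.2)
    have h4 : (ℓ : ZMod p) • (w : k ⊗[ZMod p] Λ) = (ℓ : k) • (w : k ⊗[ZMod p] Λ) := by
      rw [Nat.cast_smul_eq_nsmul, Nat.cast_smul_eq_nsmul]
    simp only [LinearMap.add_apply, LinearMap.sub_apply, Module.End.mul_apply,
      LinearMap.smul_apply, Module.End.one_apply, LinearMap.zero_apply] at h2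
    show R σ (R σ w) - a ℓ • R σ w + (ℓ : k) • (w : k ⊗[ZMod p] Λ) = 0
    rw [← h3, ← h4]
    exact h2

end Fermat.Agent.S29Lib
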